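import Fermat.Agent.MW.Loc.Opn

/-!
# MW / LOC leaf 8: the norm of a functional `Y` on the kernel of a functional `X` is `|X ∧ Y| / |X|`.

Let `i₀` with `a (X i₀) = nrm a X` (`exists_eq_nrm`; `ι` is nonempty as `X ≠ 0`).
(≤) for `s ∈ ker X`: `s i₀ = - ∑_{i ≠ i₀} s i * X i / X i₀`, so
`pair s Y = ∑_{i ≠ i₀} s i * (X i₀ * Y i - X i * Y i₀) / X i₀`; `abv_sum_le`.
(≥) the vector `z i = e_i - (X i / X i₀) e_{i₀}` lies in `ker X`, `nrm (z i) ≤ 1` (`= 1`), and
`pair (z i) Y = (X i₀ * Y i - X i * Y i₀) / X i₀`; so `a (X i₀ * Y i - X i * Y i₀) ≤ opn * nrm X` (`abv_pair_le_opn`); and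
`X i₀ * (X i * Y j - X j * Y i) = X i * (X i₀ * Y j - X j * Y i₀) - X j * (X i₀ * Y i - X i * Y i₀)`.
-/

set_option autoImplicit false

namespace Fermat.Agent.MW

variable {K : Type*} [Field K] {ι : Type*} [Fintype ι]

/-- The kernel of the functional `pair · X`. -/
def kerF (X : ι → K) : Submodule K (ι → K) where
  carrier := {s | pair s X = 0}
  add_mem' := by
    intro s s' hs hs'
    have h1 : pair s X = 0 := hs
    have h2 : pair s' X = 0 := hs'
    simp only [pair] at h1 h2
    simp only [Set.mem_ofPred_eq, pair, Pi.add_apply, add_mul, Finset.sum_add_distrib, h1, h2,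
      add_zero]
  zero_mem' := by simp [pair]
  smul_mem' := by
    intro c s hs
    have h1 : pair s X = 0 := hs
    simp only [pair] at h1
    simp only [Set.mem_ofPred_eq, pair, Pi.smul_apply, smul_eq_mul, mul_assoc, ← Finset.mul_sum, h1,
      mul_zero]

theorem mem_kerF (X s : ι → K) : s ∈ kerF X ↔ pair s X = 0 := Iff.rfl

theorem Wedge_abv_sub_le (a : AbsoluteValue K ℝ) (u v : K) {c : ℝ} (hc : 0 ≤ c) (hu : a u ≤ c)
    (hv : a v ≤ c) : a (u - v) ≤ kap a 2 * c := by
  have h := abv_sum_le a (Finset.univ : Finset (Fin 2)) ![u, -v] hc (by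
    intro j _
    fin_cases j
    · simpa using hu
    · simpa using hv)
  simpa [Fin.sum_univ_two, sub_eq_add_neg] using h

theorem exists_opn_ker_wedge : ∃ C : ℕ, 1 ≤ C ∧ ∀ (a : AbsoluteValue K ℝ) (X Y : ι → K), X ≠ 0 →
    opn a (kerF X) Y * nrm a X ≤
      kap a C * (⨆ p : ι × ι, a (X p.1 * Y p.2 - X p.2 * Y p.1)) ∧
    (⨆ p : ι × ι, a (X p.1 * Y p.2 - X p.2 * Y p.1)) ≤ kap a C * (opn a (kerF X) Y * nrm a X) := by
  classical
  refine ⟨Fintype.card ι + 2, by omega, fun a X Y hX => ?_⟩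
  have hne : Nonempty ι := by
    by_contra h
    rw [not_nonempty_iff] at h
    exact hX (Subsingleton.elim _ _)
  obtain ⟨i₀, hi₀⟩ := exists_eq_nrm a X
  have hpos : 0 < nrm a X := nrm_pos a hX
  obtain ⟨Wd, hWd⟩ : ∃ Wd : ℝ, Wd = ⨆ p : ι × ι, a (X p.1 * Y p.2 - X p.2 * Y p.1) := ⟨_, rfl⟩
  rw [← hWd]
  have hWle : ∀ i j, a (X i * Y j - X j * Y i) ≤ Wd := fun i j => by
    rw [hWd]
    exact le_ciSup (f := fun p : ι × ι => a (X p.1 * Y p.2 - X p.2 * Y p.1))
      (Set.finite_range _).bddAbove (i, j)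
  have hW0 : 0 ≤ Wd := by
    rw [hWd]
    exact Real.iSup_nonneg fun p => a.nonneg _
  have hcard : 1 ≤ Fintype.card ι := Fintype.card_pos
  have hk1 : kap a (Fintype.card ι) ≤ kap a (Fintype.card ι + 2) := kap_mono a (by omega) hcard
  have hk2 : kap a 2 ≤ kap a (Fintype.card ι + 2) := kap_mono a (by omega) (by omega)
  have hk0 : 0 ≤ kap a (Fintype.card ι + 2) := Opn_kap_nonneg a _
  constructor
  · have hopn : opn a (kerF X) Y ≤ kap a (Fintype.card ι + 2) * Wd / nrm a X := by
      refine opn_le a _ Y (div_nonneg (mul_nonneg hk0 hW0) hpos.le) fun s hs => ?_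
      have hs0 : pair s X = 0 := hs
      have hid : X i₀ * pair s Y = ∑ i, s i * (X i₀ * Y i - X i * Y i₀) := by
        have h0 : X i₀ * pair s Y = X i₀ * pair s Y - Y i₀ * pair s X := by
          rw [hs0, mul_zero, sub_zero]
        rw [h0]
        simp only [pair, Finset.mul_sum, ← Finset.sum_sub_distrib]
        exact Finset.sum_congr rfl fun i _ => by ring
      have h1 := abv_sum_le a Finset.univ (fun i => s i * (X i₀ * Y i - X i * Y i₀))
        (mul_nonneg (nrm_nonneg a s) hW0) (fun i _ => by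
          rw [map_mul]
          exact mul_le_mul (le_nrm a s i) (hWle i₀ i) (a.nonneg _) (nrm_nonneg a s))
      rw [← hid, map_mul, hi₀, Finset.card_univ] at h1
      rw [div_mul_eq_mul_div, le_div_iff₀ hpos]
      calc a (pair s Y) * nrm a X = nrm a X * a (pair s Y) := mul_comm _ _
        _ ≤ kap a (Fintype.card ι) * (nrm a s * Wd) := h1
        _ ≤ kap a (Fintype.card ι + 2) * (nrm a s * Wd) :=
            mul_le_mul_of_nonneg_right hk1 (mul_nonneg (nrm_nonneg a s) hW0)
        _ = kap a (Fintype.card ι + 2) * Wd * nrm a s := by ring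
    calc opn a (kerF X) Y * nrm a X
        ≤ kap a (Fintype.card ι + 2) * Wd / nrm a X * nrm a X :=
          mul_le_mul_of_nonneg_right hopn hpos.le
      _ = kap a (Fintype.card ι + 2) * Wd := div_mul_cancel₀ _ hpos.ne'
  · have hO0 : 0 ≤ opn a (kerF X) Y := opn_nonneg a _ _
    have hz : ∀ i, a (X i₀ * Y i - X i * Y i₀) ≤ opn a (kerF X) Y * nrm a X := by
      intro i
      obtain ⟨z, hzdef⟩ : ∃ z : ι → K, z = fun k =>
        (if k = i then X i₀ else 0) - (if k = i₀ then X i else 0) := ⟨_, rfl⟩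
      have hpz : ∀ T : ι → K, pair z T = X i₀ * T i - X i * T i₀ := by
        intro T
        rw [hzdef]
        simp [pair, sub_mul, Finset.sum_sub_distrib, ite_mul]
      have hzX : z ∈ kerF X := by
        rw [mem_kerF, hpz]
        ring
      have hzn : nrm a z ≤ nrm a X := by
        refine nrm_le a hpos.le fun k => ?_
        rw [hzdef]
        by_cases h1 : k = i <;> by_cases h2 : k = i₀
        · have h3 : i = i₀ := h1.symm.trans h2
          simp only [h1, h3, if_true, sub_self, map_zero]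
          exact hpos.le
        · simp only [h1, h2, if_true, if_false, sub_zero]
          rw [if_neg (fun h => h2 (h1.trans h)), sub_zero]
          exact le_nrm a X i₀
        · simp only [h1, h2, if_true, if_false, zero_sub, map_neg_eq_map]
          rw [if_neg (fun h => h1 (h2.trans h)), zero_sub, map_neg_eq_map]
          exact le_nrm a X i
        · simp only [h1, h2, if_false, sub_zero, map_zero]
          exact hpos.le
      calc a (X i₀ * Y i - X i * Y i₀) = a (pair z Y) := by rw [hpz]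
        _ ≤ opn a (kerF X) Y * nrm a z := abv_pair_le_opn a _ Y hzX
        _ ≤ opn a (kerF X) Y * nrm a X := mul_le_mul_of_nonneg_left hzn hO0
    have hON : 0 ≤ opn a (kerF X) Y * nrm a X := mul_nonneg hO0 hpos.le
    rw [hWd]
    refine Real.iSup_le (fun p => ?_) (mul_nonneg hk0 hON)
    have hid2 : X i₀ * (X p.1 * Y p.2 - X p.2 * Y p.1) =
        X p.1 * (X i₀ * Y p.2 - X p.2 * Y i₀) - X p.2 * (X i₀ * Y p.1 - X p.1 * Y i₀) := by ring
    have h1 := Wedge_abv_sub_le a (X p.1 * (X i₀ * Y p.2 - X p.2 * Y i₀))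
      (X p.2 * (X i₀ * Y p.1 - X p.1 * Y i₀)) (c := nrm a X * (opn a (kerF X) Y * nrm a X))
      (mul_nonneg hpos.le hON)
      (by rw [map_mul]; exact mul_le_mul (le_nrm a X _) (hz _) (a.nonneg _) hpos.le)
      (by rw [map_mul]; exact mul_le_mul (le_nrm a X _) (hz _) (a.nonneg _) hpos.le)
    rw [← hid2, map_mul, hi₀] at h1
    have h2 : nrm a X * a (X p.1 * Y p.2 - X p.2 * Y p.1) ≤
        nrm a X * (kap a (Fintype.card ι + 2) * (opn a (kerF X) Y * nrm a X)) := by
      calc nrm a X * a (X p.1 * Y p.2 - X p.2 * Y p.1)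
          ≤ kap a 2 * (nrm a X * (opn a (kerF X) Y * nrm a X)) := h1
        _ ≤ kap a (Fintype.card ι + 2) * (nrm a X * (opn a (kerF X) Y * nrm a X)) :=
            mul_le_mul_of_nonneg_right hk2 (mul_nonneg hpos.le hON)
        _ = _ := by ring
    exact le_of_mul_le_mul_left h2 hpos

end Fermat.Agent.MW
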