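import Fermat.Agent.MW.Loc.Vol

/-!
# MW / LOC leaf 3: volumes under linear maps which are bounded above and below.

Proof of `le_vol_map` (same for archimedean and nonarchimedean `a`): let `y` be an echelon basis of
`T(W)`, `y i = T (x i)`, `x i ∈ W`; then `nrm (x i) ≤ 1 / c`, `x = P t`, `y = P (T t)`,
`vol (T t) / vol t = vol y / vol x ≥ 1 / (kap r! * c ^ (-r))`.
-/

set_option autoImplicit false

namespace Fermat.Agent.MW

variable {K : Type*} [Field K] (a : AbsoluteValue K ℝ) {ι ι' : Type*} [Fintype ι] [Fintype ι'] {r : ℕ}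

theorem VolMap_kap_pos : 0 < kap a r.factorial :=
  lt_of_lt_of_le one_pos (one_le_kap a (Nat.succ_le_of_lt r.factorial_pos))

theorem vol_map_le (T : (ι → K) →ₗ[K] (ι' → K)) {t : Fin r → ι → K} (ht : LinearIndependent K t)
    {C : ℝ} (hC : 0 ≤ C)
    (h : ∀ x ∈ Submodule.span K (Set.range t), nrm a (T x) ≤ C * nrm a x) :
    vol a (fun i => T (t i)) ≤ kap a r.factorial * C ^ r * vol a t := by
  obtain ⟨I, y, hy, hspan⟩ := exists_echelon a ht
  obtain ⟨P, -, hP⟩ := exists_matrix_of_span_eq hy.linearIndependent ht hspan.symm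
  have hk : 0 < kap a r.factorial := VolMap_kap_pos a
  have h1 : vol a t = a P.det * vol a y := by
    rw [← vol_mulVec]
    congr 1
    funext i
    exact hP i
  have h2 : vol a (fun i => T (t i)) = a P.det * vol a (fun i => T (y i)) := by
    rw [← vol_mulVec]
    congr 1
    funext i
    rw [hP i, map_sum]
    simp only [map_smul]
  have h3 : vol a (fun i => T (y i)) ≤ kap a r.factorial * C ^ r := by
    refine (vol_le_prod a _).trans ?_
    refine mul_le_mul_of_nonneg_left ?_ hk.le
    calc ∏ i, nrm a (T (y i)) ≤ ∏ _i : Fin r, C := by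
          refine Finset.prod_le_prod (fun i _ => nrm_nonneg a _) (fun i _ => ?_)
          have := h (y i) (hspan ▸ Submodule.subset_span ⟨i, rfl⟩)
          rwa [hy.nrm_eq_one, mul_one] at this
      _ = C ^ r := by simp
  have h4 : 1 ≤ vol a y := hy.one_le_vol
  rw [h1, h2]
  have hd : 0 ≤ a P.det := a.nonneg _
  have hkc : 0 ≤ kap a r.factorial * C ^ r := mul_nonneg hk.le (pow_nonneg hC r)
  calc a P.det * vol a (fun i => T (y i)) ≤ a P.det * (kap a r.factorial * C ^ r) :=
        mul_le_mul_of_nonneg_left h3 hd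
    _ = kap a r.factorial * C ^ r * (a P.det * 1) := by ring
    _ ≤ kap a r.factorial * C ^ r * (a P.det * vol a y) :=
        mul_le_mul_of_nonneg_left (mul_le_mul_of_nonneg_left h4 hd) hkc

theorem le_vol_map (T : (ι → K) →ₗ[K] (ι' → K)) {t : Fin r → ι → K} (ht : LinearIndependent K t)
    {c : ℝ} (hc : 0 < c)
    (h : ∀ x ∈ Submodule.span K (Set.range t), c * nrm a x ≤ nrm a (T x)) :
    c ^ r * vol a t ≤ kap a r.factorial * vol a (fun i => T (t i)) := by
  have hk : 0 < kap a r.factorial := VolMap_kap_pos a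
  have hTt : LinearIndependent K (fun i => T (t i)) := by
    refine ht.map (f := T) ?_
    rw [Submodule.disjoint_def]
    intro x hx hx0
    have h0 := h x hx
    rw [LinearMap.mem_ker.mp hx0, (nrm_eq_zero_iff a (0 : ι' → K)).mpr rfl] at h0
    have h1 : nrm a x ≤ 0 := by
      by_contra hlt
      push Not at hlt
      have := mul_pos hc hlt
      linarith
    exact (nrm_eq_zero_iff a x).mp (le_antisymm h1 (nrm_nonneg a x))
  obtain ⟨I, y, hy, hspan⟩ := exists_echelon a hTt
  obtain ⟨P, hdet, hP⟩ := exists_matrix_of_span_eq hTt hy.linearIndependent hspan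
  have hd : 0 < a P.det := a.pos hdet
  have hyx : ∀ i, y i = T (∑ j, P i j • t j) := by
    intro i
    rw [hP i, map_sum]
    simp only [map_smul]
  have hxmem : ∀ i, (∑ j, P i j • t j) ∈ Submodule.span K (Set.range t) := fun i =>
    Submodule.sum_mem _ (fun j _ => Submodule.smul_mem _ _ (Submodule.subset_span ⟨j, rfl⟩))
  have h1 : vol a (fun i => ∑ j, P i j • t j) = a P.det * vol a t := vol_mulVec a P t
  have h2 : vol a y = a P.det * vol a (fun i => T (t i)) := by
    rw [← vol_mulVec]
    congr 1
    funext i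
    exact hP i
  have h3 : c ^ r * vol a (fun i => ∑ j, P i j • t j) ≤ kap a r.factorial := by
    have hb := vol_le_prod a (fun i => ∑ j, P i j • t j)
    have hprod : c ^ r * ∏ i, nrm a (∑ j, P i j • t j) ≤ 1 := by
      have : c ^ r * ∏ i, nrm a (∑ j, P i j • t j) = ∏ i : Fin r, (c * nrm a (∑ j, P i j • t j)) := by
        rw [Finset.prod_mul_distrib]
        simp
      rw [this]
      refine Finset.prod_le_one (fun i _ => mul_nonneg hc.le (nrm_nonneg a _)) (fun i _ => ?_)
      have := h _ (hxmem i)
      rwa [← hyx i, hy.nrm_eq_one] at this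
    calc c ^ r * vol a (fun i => ∑ j, P i j • t j)
        ≤ c ^ r * (kap a r.factorial * ∏ i, nrm a (∑ j, P i j • t j)) :=
          mul_le_mul_of_nonneg_left hb (pow_nonneg hc.le r)
      _ = kap a r.factorial * (c ^ r * ∏ i, nrm a (∑ j, P i j • t j)) := by ring
      _ ≤ kap a r.factorial * 1 := mul_le_mul_of_nonneg_left hprod hk.le
      _ = kap a r.factorial := mul_one _
  have h4 : 1 ≤ vol a y := hy.one_le_vol
  rw [h1] at h3
  rw [h2] at h4
  have h5 : a P.det * (c ^ r * vol a t) ≤ a P.det * (kap a r.factorial * vol a (fun i => T (t i))) := by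
    calc a P.det * (c ^ r * vol a t) = c ^ r * (a P.det * vol a t) := by ring
      _ ≤ kap a r.factorial := h3
      _ = kap a r.factorial * 1 := (mul_one _).symm
      _ ≤ kap a r.factorial * (a P.det * vol a (fun i => T (t i))) :=
          mul_le_mul_of_nonneg_left h4 hk.le
      _ = a P.det * (kap a r.factorial * vol a (fun i => T (t i))) := by ring
  exact le_of_mul_le_mul_left h5 hd

end Fermat.Agent.MW
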