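import Fermat.Agent.MW.Loc.Vol

/-!
# MW / LOC leaf 4: the norm `opn a W X` of the functional `pair · X` on the subspace `W`.
-/

set_option autoImplicit false

namespace Fermat.Agent.MW

variable {K : Type*} [Field K] (a : AbsoluteValue K ℝ) {ι : Type*} [Fintype ι] {r : ℕ}

theorem Opn_kap_nonneg (n : ℕ) : 0 ≤ kap a n := by
  unfold kap
  split_ifs
  · exact zero_le_one
  · exact Nat.cast_nonneg n

theorem Opn_quot_le (X s : ι → K) :
    a (pair s X) / nrm a s ≤ kap a (Fintype.card ι) * nrm a X := by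
  apply div_le_of_le_mul₀ (nrm_nonneg a s)
    (mul_nonneg (Opn_kap_nonneg a _) (nrm_nonneg a X))
  calc a (pair s X) ≤ kap a (Fintype.card ι) * (nrm a s * nrm a X) := abv_pair_le a s X
    _ = kap a (Fintype.card ι) * nrm a X * nrm a s := by ring

theorem opn_bddAbove (W : Submodule K (ι → K)) (X : ι → K) :
    BddAbove (Set.range fun s : W => a (pair (s : ι → K) X) / nrm a (s : ι → K)) := by
  refine ⟨kap a (Fintype.card ι) * nrm a X, ?_⟩
  rintro _ ⟨s, rfl⟩
  exact Opn_quot_le a X s

theorem opn_nonneg (W : Submodule K (ι → K)) (X : ι → K) : 0 ≤ opn a W X :=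
  Real.iSup_nonneg fun s => div_nonneg (a.nonneg _) (nrm_nonneg a _)

theorem abv_pair_le_opn (W : Submodule K (ι → K)) (X : ι → K) {s : ι → K} (hs : s ∈ W) :
    a (pair s X) ≤ opn a W X * nrm a s := by
  by_cases h0 : s = 0
  · subst h0
    have : pair (0 : ι → K) X = 0 := by simp [pair]
    rw [this, map_zero]
    exact mul_nonneg (opn_nonneg a W X) (nrm_nonneg a _)
  · have hpos : 0 < nrm a s := nrm_pos a h0
    have h1 : a (pair s X) / nrm a s ≤ opn a W X :=
      le_ciSup (opn_bddAbove a W X) (⟨s, hs⟩ : W)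
    exact (div_le_iff₀ hpos).mp h1

theorem opn_le (W : Submodule K (ι → K)) (X : ι → K) {c : ℝ} (hc : 0 ≤ c)
    (h : ∀ s ∈ W, a (pair s X) ≤ c * nrm a s) : opn a W X ≤ c :=
  Real.iSup_le (fun s => div_le_of_le_mul₀ (nrm_nonneg a _) hc (h s s.2)) hc

theorem opn_mono {W W' : Submodule K (ι → K)} (h : W ≤ W') (X : ι → K) : opn a W X ≤ opn a W' X :=
  opn_le a W X (opn_nonneg a W' X) fun _ hs => abv_pair_le_opn a W' X (h hs)

theorem opn_pos {W : Submodule K (ι → K)} {X : ι → K} {s : ι → K} (hs : s ∈ W) (h : pair s X ≠ 0) :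
    0 < opn a W X := by
  rcases (opn_nonneg a W X).lt_or_eq with h1 | h1
  · exact h1
  · exfalso
    have h2 := abv_pair_le_opn a W X hs
    rw [← h1, zero_mul] at h2
    exact absurd h2 (not_le.mpr (a.pos h))

theorem opn_le_nrm (W : Submodule K (ι → K)) (X : ι → K) :
    opn a W X ≤ kap a (Fintype.card ι) * nrm a X :=
  Real.iSup_le (fun s => Opn_quot_le a X s) (mul_nonneg (Opn_kap_nonneg a _) (nrm_nonneg a X))

theorem nrm_le_opn_top (X : ι → K) : nrm a X ≤ opn a ⊤ X := by
  classical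
  refine nrm_le a (opn_nonneg a ⊤ X) fun i => ?_
  have h1 : pair (Pi.single i (1 : K)) X = X i := by
    simp [pair, Pi.single_apply]
  have h2 : nrm a (Pi.single i (1 : K)) ≤ 1 := by
    refine nrm_le a zero_le_one fun j => ?_
    by_cases hj : j = i
    · subst hj; simp
    · simp [Pi.single_apply, hj]
  calc a (X i) = a (pair (Pi.single i (1 : K)) X) := by rw [h1]
    _ ≤ opn a ⊤ X * nrm a (Pi.single i (1 : K)) := abv_pair_le_opn a ⊤ X Submodule.mem_top
    _ ≤ opn a ⊤ X * 1 := mul_le_mul_of_nonneg_left h2 (opn_nonneg a ⊤ X)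
    _ = opn a ⊤ X := mul_one _

theorem Opn_pair_sum_smul {κ : Type*} (t : Finset κ) (c : κ → K) (y : κ → ι → K) (X : ι → K) :
    pair (∑ i ∈ t, c i • y i) X = ∑ i ∈ t, c i * pair (y i) X := by
  simp only [pair, Finset.sum_apply, Pi.smul_apply, smul_eq_mul, Finset.sum_mul, Finset.mul_sum]
  rw [Finset.sum_comm]
  exact Finset.sum_congr rfl fun i _ => Finset.sum_congr rfl fun j _ => mul_assoc _ _ _

/-- In an echelon basis the norm of a functional is the maximum of its values on the basis, up to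
`kap r`. -/
theorem opn_le_of_echelon {y : Fin r → ι → K} {I : Fin r → ι} (h : IsEchelon a y I) (X : ι → K)
    {c : ℝ} (hc : 0 ≤ c) (hy : ∀ i, a (pair (y i) X) ≤ c) :
    opn a (Submodule.span K (Set.range y)) X ≤ kap a r * c := by
  refine opn_le a _ X (mul_nonneg (Opn_kap_nonneg a r) hc) fun s hs => ?_
  have h1 : pair s X = ∑ i, s (I i) * pair (y i) X := by
    conv_lhs => rw [h.eq_sum hs]
    exact Opn_pair_sum_smul Finset.univ _ y X
  have h2 := abv_sum_le a Finset.univ (fun i => s (I i) * pair (y i) X)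
    (mul_nonneg (nrm_nonneg a s) hc) (fun i _ => by
      rw [map_mul]
      exact mul_le_mul (le_nrm a s (I i)) (hy i) (a.nonneg _) (nrm_nonneg a s))
  rw [Finset.card_univ, Fintype.card_fin] at h2
  rw [h1]
  calc a (∑ i, s (I i) * pair (y i) X) ≤ kap a r * (nrm a s * c) := h2
    _ = kap a r * c * nrm a s := by ring

theorem abv_pair_echelon_le_opn {y : Fin r → ι → K} {I : Fin r → ι} (h : IsEchelon a y I) (X : ι → K)
    (i : Fin r) : a (pair (y i) X) ≤ opn a (Submodule.span K (Set.range y)) X := by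
  have h1 := abv_pair_le_opn a (Submodule.span K (Set.range y)) X
    (Submodule.subset_span (Set.mem_range_self i))
  rwa [h.nrm_eq_one i, mul_one] at h1

end Fermat.Agent.MW
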