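import Fermat.Agent.MW.Loc.Defs

/-!
# MW / LOC leaf 1: `kap`, `nrm`, `pair`: elementary estimates.
-/

set_option autoImplicit false

namespace Fermat.Agent.MW

variable {K : Type*} [Field K] (a : AbsoluteValue K ℝ) {ι : Type*} [Fintype ι]

theorem kap_of_nonarch (h : IsNonarchimedean a) (n : ℕ) : kap a n = 1 := by
  unfold kap
  rw [if_pos h]

theorem one_le_kap {n : ℕ} (hn : 1 ≤ n) : 1 ≤ kap a n := by
  unfold kap
  split_ifs
  · exact le_rfl
  · exact_mod_cast hn

theorem kap_mono {m n : ℕ} (h : m ≤ n) (hm : 1 ≤ m) : kap a m ≤ kap a n := by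
  unfold kap
  split_ifs
  · exact le_rfl
  · exact_mod_cast h

theorem kap_mul (m n : ℕ) : kap a m * kap a n = kap a (m * n) := by
  unfold kap
  split_ifs
  · exact one_mul 1
  · push_cast
    rfl

/-- For an `AbsFam`, `kap (A.abv v) n ≤ (AdC.arch n hn).c v`. -/
theorem kap_le_arch (A : AbsFam) (v : Plc) (n : ℕ) (hn : 1 ≤ n) :
    kap (A.abv v) n ≤ (AdC.arch n hn).c v := by
  cases v with
  | none =>
    have h1 : (AdC.arch n hn).c none = (n : ℝ) := by simp [AdC.arch]
    rw [h1]
    unfold kap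
    split_ifs
    · exact_mod_cast hn
    · exact le_rfl
  | some p =>
    have h1 : (AdC.arch n hn).c (some p) = 1 := by simp [AdC.arch]
    rw [h1, kap_of_nonarch _ (A.nonarch p)]

theorem le_nrm (x : ι → K) (i : ι) : a (x i) ≤ nrm a x := by
  exact le_ciSup (f := fun i => a (x i)) (Set.finite_range _).bddAbove i

theorem nrm_nonneg (x : ι → K) : 0 ≤ nrm a x := by
  exact Real.iSup_nonneg fun i => a.nonneg _

theorem nrm_le {x : ι → K} {c : ℝ} (hc : 0 ≤ c) (h : ∀ i, a (x i) ≤ c) : nrm a x ≤ c := by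
  exact Real.iSup_le h hc

theorem nrm_eq_zero_iff (x : ι → K) : nrm a x = 0 ↔ x = 0 := by
  constructor
  · intro h
    funext i
    have h1 := le_nrm a x i
    rw [h] at h1
    exact a.eq_zero.mp (le_antisymm h1 (a.nonneg _))
  · rintro rfl
    exact le_antisymm (nrm_le a le_rfl fun i => by simp) (nrm_nonneg a _)

theorem nrm_pos {x : ι → K} (hx : x ≠ 0) : 0 < nrm a x := by
  exact lt_of_le_of_ne (nrm_nonneg a x) fun h => hx ((nrm_eq_zero_iff a x).mp h.symm)

theorem exists_eq_nrm [Nonempty ι] (x : ι → K) : ∃ i, a (x i) = nrm a x := by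
  exact exists_eq_ciSup_of_finite (f := fun i => a (x i))

theorem nrm_smul (c : K) (x : ι → K) : nrm a (c • x) = a c * nrm a x := by
  unfold nrm
  rw [Real.mul_iSup_of_nonneg (a.nonneg c)]
  refine iSup_congr fun i => ?_
  rw [Pi.smul_apply, smul_eq_mul, map_mul]

/-- `|∑_{j ∈ s} f j| ≤ kap (#s) * max`. -/
theorem abv_sum_le {κ : Type*} (s : Finset κ) (f : κ → K) {c : ℝ} (hc : 0 ≤ c)
    (h : ∀ j ∈ s, a (f j) ≤ c) : a (∑ j ∈ s, f j) ≤ kap a s.card * c := by
  classical
  by_cases hna : IsNonarchimedean a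
  · rw [kap_of_nonarch a hna, one_mul]
    induction s using Finset.induction_on with
    | empty => simpa using hc
    | insert j s hj ih =>
      rw [Finset.sum_insert hj]
      exact (hna _ _).trans (max_le (h j (Finset.mem_insert_self j s))
        (ih fun i hi => h i (Finset.mem_insert_of_mem hi)))
  · have hk : kap a s.card = (s.card : ℝ) := by
      unfold kap
      rw [if_neg hna]
    rw [hk, ← nsmul_eq_mul]
    exact (a.sum_le s f).trans (Finset.sum_le_card_nsmul s _ c h)

theorem nrm_add_le (x y : ι → K) : nrm a (x + y) ≤ kap a 2 * max (nrm a x) (nrm a y) := by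
  have hm : 0 ≤ max (nrm a x) (nrm a y) := (nrm_nonneg a x).trans (le_max_left _ _)
  refine nrm_le a (mul_nonneg (zero_le_one.trans (one_le_kap a one_le_two)) hm) fun i => ?_
  have h := abv_sum_le a (Finset.univ : Finset (Fin 2)) ![x i, y i] hm (by
    intro j _
    fin_cases j
    · exact (le_nrm a x i).trans (le_max_left _ _)
    · exact (le_nrm a y i).trans (le_max_right _ _))
  simpa [Fin.sum_univ_two] using h

theorem nrm_sum_le {κ : Type*} (s : Finset κ) (f : κ → ι → K) {c : ℝ} (hc : 0 ≤ c)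
    (h : ∀ j ∈ s, nrm a (f j) ≤ c) : nrm a (∑ j ∈ s, f j) ≤ kap a s.card * c := by
  have hk : 0 ≤ kap a s.card := by
    unfold kap
    split_ifs
    · exact zero_le_one
    · exact Nat.cast_nonneg _
  refine nrm_le a (mul_nonneg hk hc) fun i => ?_
  rw [Finset.sum_apply]
  exact abv_sum_le a s (fun j => f j i) hc fun j hj => (le_nrm a (f j) i).trans (h j hj)

theorem abv_pair_le (x X : ι → K) :
    a (pair x X) ≤ kap a (Fintype.card ι) * (nrm a x * nrm a X) := by
  unfold pair
  rw [← Finset.card_univ]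
  refine abv_sum_le a Finset.univ _ (mul_nonneg (nrm_nonneg a x) (nrm_nonneg a X)) fun i _ => ?_
  rw [map_mul]
  exact mul_le_mul (le_nrm a x i) (le_nrm a X i) (a.nonneg _) (nrm_nonneg a x)

/-- Leibniz formula: `|det M| ≤ kap (r!) * ∏_i c i` if the `i`-th row is bounded by `c i`. -/
theorem abv_det_le {r : ℕ} (M : Matrix (Fin r) (Fin r) K) (c : Fin r → ℝ) (hc : ∀ i, 0 ≤ c i)
    (h : ∀ i j, a (M i j) ≤ c i) : a M.det ≤ kap a r.factorial * ∏ i, c i := by
  have hcard : (Finset.univ : Finset (Equiv.Perm (Fin r))).card = r.factorial := by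
    rw [Finset.card_univ, Fintype.card_perm, Fintype.card_fin]
  rw [Matrix.det_apply, ← hcard]
  refine abv_sum_le a Finset.univ _ (Finset.prod_nonneg fun i _ => hc i) fun σ _ => ?_
  have h1 : a (Equiv.Perm.sign σ • ∏ i, M (σ i) i) = a (∏ i, M (σ i) i) := by
    rcases Int.units_eq_one_or (Equiv.Perm.sign σ) with hs | hs
    · rw [hs, one_smul]
    · rw [hs, Units.neg_smul, one_smul, AbsoluteValue.map_neg]
  rw [h1, map_prod, ← Equiv.prod_comp σ c]
  exact Finset.prod_le_prod (fun i _ => a.nonneg _) fun i _ => h (σ i) i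

end Fermat.Agent.MW
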