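import Fermat.Agent.MW.Loc.Basic

/-!
# MW / LOC leaf 2: volumes and echelon bases.
-/

set_option autoImplicit false

namespace Fermat.Agent.MW

variable {K : Type*} [Field K] (a : AbsoluteValue K ℝ) {ι : Type*} [Fintype ι] {r : ℕ}

theorem vol_nonneg (t : Fin r → ι → K) : 0 ≤ vol a t :=
  Real.iSup_nonneg fun _ => a.nonneg _

theorem le_vol (t : Fin r → ι → K) (I : Fin r → ι) :
    a (Matrix.det (Matrix.of fun i j => t i (I j))) ≤ vol a t :=
  le_ciSup (f := fun I : Fin r → ι => a (Matrix.det (Matrix.of fun i j => t i (I j))))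
    (Set.finite_range _).bddAbove I

theorem vol_le {t : Fin r → ι → K} {c : ℝ} (hc : 0 ≤ c)
    (h : ∀ I : Fin r → ι, a (Matrix.det (Matrix.of fun i j => t i (I j))) ≤ c) : vol a t ≤ c :=
  Real.iSup_le h hc

omit [Fintype ι] in
/-- A linearly independent family has a nonzero maximal minor. -/
theorem Vol.exists_minor_ne_zero [Finite ι] {t : Fin r → ι → K} (ht : LinearIndependent K t) :
    ∃ I : Fin r → ι, Matrix.det (Matrix.of fun i j => t i (I j)) ≠ 0 := by
  classical
  cases nonempty_fintype ι
  set A : Matrix (Fin r) ι K := Matrix.of t with hA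
  have hrank : A.rank = r := by
    have := LinearIndependent.rank_matrix (M := A) ht
    rwa [Fintype.card_fin] at this
  rw [Matrix.rank_eq_finrank_span_cols] at hrank
  obtain ⟨f, hf1, -, hf3⟩ := Submodule.exists_fun_fin_finrank_span_eq K (Set.range A.col)
  choose J hJ using hf1
  refine ⟨fun j => J (finCongr hrank.symm j), ?_⟩
  have hcol : (Matrix.of fun i j => t i (J (finCongr hrank.symm j))).col =
      f ∘ (finCongr hrank.symm) := by
    funext j
    rw [Function.comp_apply, ← hJ]
    rfl
  have hli : LinearIndependent K (Matrix.of fun i j => t i (J (finCongr hrank.symm j))).col := by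
    rw [hcol]
    exact hf3.comp _ (finCongr hrank.symm).injective
  have hu := Matrix.linearIndependent_cols_iff_isUnit.1 hli
  exact ((Matrix.isUnit_iff_isUnit_det _).1 hu).ne_zero

/-- A linearly independent family has a nonzero maximal minor. -/
theorem vol_pos {t : Fin r → ι → K} (ht : LinearIndependent K t) : 0 < vol a t := by
  obtain ⟨I, hI⟩ := Vol.exists_minor_ne_zero ht
  exact lt_of_lt_of_le (a.pos hI) (le_vol a t I)

omit [Fintype ι] in
theorem Vol.minor_mulVec (P : Matrix (Fin r) (Fin r) K) (t : Fin r → ι → K) (I : Fin r → ι) :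
    Matrix.det (Matrix.of fun i j => (∑ l, P i l • t l) (I j)) =
      P.det * Matrix.det (Matrix.of fun i j => t i (I j)) := by
  rw [← Matrix.det_mul]
  congr 1
  ext i j
  simp [Matrix.mul_apply]

/-- Change of basis. -/
theorem vol_mulVec (P : Matrix (Fin r) (Fin r) K) (t : Fin r → ι → K) :
    vol a (fun i => ∑ j, P i j • t j) = a P.det * vol a t := by
  unfold vol
  rw [Real.mul_iSup_of_nonneg (a.nonneg _)]
  congr 1
  funext I
  rw [Vol.minor_mulVec, map_mul]

/-- Hadamard type bound. -/
theorem vol_le_prod (t : Fin r → ι → K) : vol a t ≤ kap a r.factorial * ∏ i, nrm a (t i) := by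
  have h1 : 0 ≤ kap a r.factorial :=
    zero_le_one.trans (one_le_kap a (Nat.succ_le_of_lt r.factorial_pos))
  refine vol_le a (mul_nonneg h1 (Finset.prod_nonneg fun i _ => nrm_nonneg a _)) fun I => ?_
  exact abv_det_le a _ (fun i => nrm a (t i)) (fun i => nrm_nonneg a _)
    fun i j => le_nrm a (t i) (I j)

/-- If `ι = Fin r` (or any `e : Fin r ≃ ι`) the volume is the absolute value of the determinant. -/
theorem vol_eq_det (e : Fin r ≃ ι) (t : Fin r → ι → K) :
    vol a t = a (Matrix.det (Matrix.of fun i j => t i (e j))) := by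
  refine le_antisymm (vol_le a (a.nonneg _) fun I => ?_) (le_vol a t e)
  by_cases hI : Function.Injective I
  · have hbij : Function.Bijective (e.symm ∘ I) :=
      Finite.injective_iff_bijective.1 (e.symm.injective.comp hI)
    set σ : Equiv.Perm (Fin r) := Equiv.ofBijective _ hbij with hσ
    have h1 : (Matrix.of fun i j => t i (I j)) =
        (Matrix.of fun i j => t i (e j)).submatrix id σ := by
      ext i j
      simp [hσ]
    rw [h1, Matrix.det_permute', map_mul]
    have h2 : a ((Equiv.Perm.sign σ : ℤ) : K) = 1 := by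
      rcases Int.units_eq_one_or (Equiv.Perm.sign σ) with h | h <;> simp [h]
    rw [h2, one_mul]
  · have : ∃ i j, I i = I j ∧ i ≠ j := by
      unfold Function.Injective at hI
      push Not at hI
      exact hI
    obtain ⟨i, j, hij, hne⟩ := this
    rw [Matrix.det_zero_of_column_eq hne (fun k => by simp [hij]), map_zero]
    exact a.nonneg _


omit [Fintype ι] in
/-- the span does not change under an invertible change of basis. -/
theorem Vol.span_mulVec {P : Matrix (Fin r) (Fin r) K} (hP : P.det ≠ 0) (t : Fin r → ι → K) :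
    Submodule.span K (Set.range fun i => ∑ j, P i j • t j) = Submodule.span K (Set.range t) := by
  apply le_antisymm
  · rw [Submodule.span_le]
    rintro _ ⟨i, rfl⟩
    exact sum_mem fun j _ => Submodule.smul_mem _ _ (Submodule.subset_span ⟨j, rfl⟩)
  · rw [Submodule.span_le]
    rintro _ ⟨i, rfl⟩
    have h1 : t i = ∑ l, P⁻¹ i l • ∑ j, P l j • t j := by
      simp only [Finset.smul_sum, smul_smul]
      rw [Finset.sum_comm]
      simp only [← Finset.sum_smul]
      have h2 : ∀ j, ∑ l, P⁻¹ i l * P l j = (1 : Matrix (Fin r) (Fin r) K) i j := by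
        intro j
        rw [← Matrix.mul_apply, Matrix.nonsing_inv_mul _ (isUnit_iff_ne_zero.2 hP)]
      simp only [h2, Matrix.one_apply, ite_smul, one_smul, zero_smul, Finset.sum_ite_eq,
        Finset.mem_univ, if_true]
    rw [h1]
    exact sum_mem fun l _ => Submodule.smul_mem _ _ (Submodule.subset_span ⟨l, rfl⟩)

/-- **Echelon bases** (maximal minor + Cramer). -/
theorem exists_echelon {t : Fin r → ι → K} (ht : LinearIndependent K t) :
    ∃ (I : Fin r → ι) (y : Fin r → ι → K), IsEchelon a y I ∧
      Submodule.span K (Set.range y) = Submodule.span K (Set.range t) := by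
  classical
  obtain ⟨I₀, hI₀⟩ := Vol.exists_minor_ne_zero ht
  have : Nonempty (Fin r → ι) := ⟨I₀⟩
  obtain ⟨I, hI⟩ := Finite.exists_max
    (fun I : Fin r → ι => a (Matrix.det (Matrix.of fun i j => t i (I j))))
  set M : Matrix (Fin r) (Fin r) K := Matrix.of fun i j => t i (I j) with hM
  have hdet : M.det ≠ 0 := by
    have h1 : 0 < a M.det := lt_of_lt_of_le (a.pos hI₀) (hI I₀)
    exact a.pos_iff.1 h1
  have hu : IsUnit M.det := isUnit_iff_ne_zero.2 hdet
  have hinv : (M⁻¹).det ≠ 0 := by
    rw [Matrix.det_nonsing_inv, Ring.inverse_eq_inv']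
    exact inv_ne_zero hdet
  refine ⟨I, fun i => ∑ j, M⁻¹ i j • t j, ⟨?_, ?_⟩, Vol.span_mulVec hinv t⟩
  · intro i j
    have h1 : (∑ l, M⁻¹ i l • t l) (I j) = (M⁻¹ * M) i j := by
      simp [Matrix.mul_apply, hM]
    show (∑ l, M⁻¹ i l • t l) (I j) = _
    rw [h1, Matrix.nonsing_inv_mul _ hu, Matrix.one_apply]
  · intro i k
    have h1 : (∑ l, M⁻¹ i l • t l) k = (M⁻¹.mulVec fun l => t l k) i := by
      simp [Matrix.mulVec, dotProduct]
    have h2 : M⁻¹.mulVec (fun l => t l k) = M.det⁻¹ • Matrix.cramer M (fun l => t l k) := by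
      rw [Matrix.inv_def, Ring.inverse_eq_inv', Matrix.smul_mulVec,
        Matrix.cramer_eq_adjugate_mulVec]
    have h3 : Matrix.cramer M (fun l => t l k) i =
        Matrix.det (Matrix.of fun i' j => t i' (Function.update I i k j)) := by
      rw [Matrix.cramer_apply]
      congr 1
      ext i' j
      by_cases hj : j = i
      · subst hj
        simp
      · simp [Matrix.updateCol_ne hj, Function.update_of_ne hj, hM]
    show a ((∑ l, M⁻¹ i l • t l) k) ≤ 1
    rw [h1, h2, Pi.smul_apply, smul_eq_mul, h3, map_mul, map_inv₀,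
      inv_mul_le_iff₀ (a.pos hdet), mul_one]
    exact hI _

variable {a}

theorem IsEchelon.linearIndependent {y : Fin r → ι → K} {I : Fin r → ι} (h : IsEchelon a y I) :
    LinearIndependent K y := by
  rw [Fintype.linearIndependent_iff]
  intro c hc j
  have h1 := congrFun hc (I j)
  simpa [h.1] using h1

theorem IsEchelon.injective {y : Fin r → ι → K} {I : Fin r → ι} (h : IsEchelon a y I) :
    Function.Injective I := by
  intro i j hij
  have h1 := h.1 i i
  rw [hij, h.1 i j] at h1
  by_contra hne
  simp [hne] at h1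

theorem IsEchelon.nrm_eq_one {y : Fin r → ι → K} {I : Fin r → ι} (h : IsEchelon a y I) (i : Fin r) :
    nrm a (y i) = 1 := by
  apply le_antisymm (nrm_le a zero_le_one (h.2 i))
  have h1 := le_nrm a (y i) (I i)
  rwa [h.1 i i, if_pos rfl, map_one] at h1

/-- The coordinates of `s` in an echelon basis are its `I`-components. -/
theorem IsEchelon.eq_sum {y : Fin r → ι → K} {I : Fin r → ι} (h : IsEchelon a y I) {s : ι → K}
    (hs : s ∈ Submodule.span K (Set.range y)) : s = ∑ i, s (I i) • y i := by
  obtain ⟨c, rfl⟩ := (Submodule.mem_span_range_iff_exists_fun K).1 hs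
  have h1 : ∀ j, (∑ i, c i • y i) (I j) = c j := by
    intro j
    simp [h.1]
  simp only [h1]

theorem IsEchelon.one_le_vol {y : Fin r → ι → K} {I : Fin r → ι} (h : IsEchelon a y I) :
    1 ≤ vol a y := by
  have h1 := le_vol a y I
  have h2 : (Matrix.of fun i j => y i (I j)) = (1 : Matrix (Fin r) (Fin r) K) := by
    ext i j
    simp [h.1, Matrix.one_apply]
  rwa [h2, Matrix.det_one, map_one] at h1

theorem IsEchelon.vol_le {y : Fin r → ι → K} {I : Fin r → ι} (h : IsEchelon a y I) :
    vol a y ≤ kap a r.factorial := by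
  have h1 := vol_le_prod a y
  simp only [h.nrm_eq_one, Finset.prod_const_one, mul_one] at h1
  exact h1

/-- Two bases of the same subspace differ by an invertible matrix. -/
theorem exists_matrix_of_span_eq {t t' : Fin r → ι → K} (ht : LinearIndependent K t)
    (ht' : LinearIndependent K t')
    (h : Submodule.span K (Set.range t') = Submodule.span K (Set.range t)) :
    ∃ P : Matrix (Fin r) (Fin r) K, P.det ≠ 0 ∧ ∀ i, t' i = ∑ j, P i j • t j := by
  have h1 : ∀ i, ∃ c : Fin r → K, ∑ j, c j • t j = t' i := by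
    intro i
    rw [← Submodule.mem_span_range_iff_exists_fun, ← h]
    exact Submodule.subset_span ⟨i, rfl⟩
  choose P hP using h1
  refine ⟨Matrix.of P, ?_, fun i => (hP i).symm⟩
  intro hdet
  obtain ⟨v, hv, hvP⟩ := Matrix.exists_vecMul_eq_zero_iff.2 hdet
  apply hv
  funext i
  refine (Fintype.linearIndependent_iff.1 ht') v ?_ i
  simp only [← hP, Finset.smul_sum, smul_smul]
  rw [Finset.sum_comm]
  simp only [← Finset.sum_smul]
  have h2 : ∀ j, ∑ i, v i * P i j = 0 := by
    intro j
    have := congrFun hvP j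
    simpa [Matrix.vecMul, dotProduct] using this
  simp [h2]

end Fermat.Agent.MW
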