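import Fermat.Agent.MW.Loc.Opn

/-!
# MW / LOC leaf 5: base times height.

`t' : Fin r → ι → K` in the kernel of `pair · X`, `x` with `pair x X = 1`, `W = span (t', x)`. Then
`vol (t', x) ≍ vol t' / opn W X`  (`1 / opn W X` is the distance of `x` from `span t'`).

Proof. Both `vol (t',x) / vol t'` and the statement are invariant under a change of the basis `t'` of
`W' = W ∩ ker` and under `x ↦ x + w'` (`vol_mulVec` with a block triangular matrix).
(≤) take `t'` echelon: `vol (t', x₁) ≤ kap (r+1)! * nrm x₁` for every `x₁ ∈ x + W'`, `1 ≤ vol t'`, and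
for every `s ∈ W` with `pair s X ≠ 0`, `x₁ = s / pair s X`.
(≥) let `y` be an echelon basis of `W`, `i₀` with `a (pair (y i₀) X)` maximal,
`z i = y i - (pair (y i) X / pair (y i₀) X) • y i₀` (`i ≠ i₀`): a basis of `W'` with `nrm (z i) ≤ kap 2`,
`vol (z, y i₀) = vol y ≥ 1`, `x ∈ y i₀ / pair (y i₀) X + W'`, `a (pair (y i₀) X) ≤ opn W X`.
-/

set_option autoImplicit false

namespace Fermat.Agent.MW

variable {K : Type*} [Field K] {ι : Type*} [Fintype ι]

/-- block triangular matrix. -/
def bhMat {r : ℕ} (P : Matrix (Fin r) (Fin r) K) (c : Fin r → K) (lam : K) :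
    Matrix (Fin (r + 1)) (Fin (r + 1)) K :=
  Matrix.of (Fin.snoc (fun i' => (Fin.snoc (P i') 0 : Fin (r + 1) → K))
    (Fin.snoc c lam : Fin (r + 1) → K) : Fin (r + 1) → Fin (r + 1) → K)

theorem bhMat_det {r : ℕ} (P : Matrix (Fin r) (Fin r) K) (c : Fin r → K) (lam : K) :
    (bhMat P c lam).det = P.det * lam := by
  rw [Matrix.det_succ_column _ (Fin.last r), Finset.sum_eq_single (Fin.last r)]
  · have h1 : (bhMat P c lam).submatrix (Fin.last r).succAbove (Fin.last r).succAbove = P := by
      ext i j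
      simp [bhMat, Fin.succAbove_last]
    rw [h1]
    have h2 : bhMat P c lam (Fin.last r) (Fin.last r) = lam := by simp [bhMat]
    rw [h2]
    have h3 : ((-1 : K)) ^ (((Fin.last r : Fin (r + 1)) : ℕ) + ((Fin.last r : Fin (r + 1)) : ℕ)) = 1 :=
      Even.neg_one_pow ⟨_, rfl⟩
    rw [h3]
    ring
  · intro i _ hi
    obtain ⟨i', rfl⟩ := Fin.exists_castSucc_eq.2 hi
    have : bhMat P c lam (Fin.castSucc i') (Fin.last r) = 0 := by simp [bhMat]
    rw [this]
    ring
  · intro h
    exact absurd (Finset.mem_univ _) h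

omit [Fintype ι] in
theorem bhMat_mulVec {r : ℕ} (P : Matrix (Fin r) (Fin r) K) (c : Fin r → K) (lam : K)
    (u : Fin r → ι → K) (z : ι → K) :
    (fun i => ∑ j, bhMat P c lam i j • (Fin.snoc u z : Fin (r + 1) → ι → K) j)
      = (Fin.snoc (fun i => ∑ j, P i j • u j) (∑ j, c j • u j + lam • z) : Fin (r + 1) → ι → K) := by
  funext i
  refine Fin.lastCases ?_ (fun i' => ?_) i
  · simp [bhMat, Fin.sum_univ_castSucc]
  · simp [bhMat, Fin.sum_univ_castSucc]

theorem bh_vol_snoc (a : AbsoluteValue K ℝ) {r : ℕ} (P : Matrix (Fin r) (Fin r) K) (c : Fin r → K)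
    (lam : K) (u : Fin r → ι → K) (z : ι → K) :
    vol a (Fin.snoc (fun i => ∑ j, P i j • u j) (∑ j, c j • u j + lam • z) : Fin (r + 1) → ι → K)
      = a P.det * a lam * vol a (Fin.snoc u z : Fin (r + 1) → ι → K) := by
  rw [← bhMat_mulVec, vol_mulVec, bhMat_det, map_mul]

theorem bh_pair_add (x y X : ι → K) : pair (x + y) X = pair x X + pair y X := by
  simp [pair, add_mul, Finset.sum_add_distrib]

theorem bh_pair_sub (x y X : ι → K) : pair (x - y) X = pair x X - pair y X := by
  simp [pair, sub_mul, Finset.sum_sub_distrib]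

theorem bh_pair_smul (c : K) (x X : ι → K) : pair (c • x) X = c * pair x X := by
  simp [pair, Finset.mul_sum, mul_assoc]

theorem bh_pair_sum {κ : Type*} (s : Finset κ) (f : κ → ι → K) (X : ι → K) :
    pair (∑ j ∈ s, f j) X = ∑ j ∈ s, pair (f j) X := by
  classical
  induction s using Finset.induction_on with
  | empty => simp [pair]
  | insert b s hb ih => rw [Finset.sum_insert hb, Finset.sum_insert hb, bh_pair_add, ih]

omit [Fintype ι] in
theorem bh_exists_matrix {r m : ℕ} {t : Fin m → ι → K} {y : Fin r → ι → K}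
    (h : ∀ i, t i ∈ Submodule.span K (Set.range y)) :
    ∃ P : Matrix (Fin m) (Fin r) K, ∀ i, t i = ∑ j, P i j • y j := by
  choose P hP using fun i => (Submodule.mem_span_range_iff_exists_fun K).1 (h i)
  exact ⟨Matrix.of P, fun i => (hP i).symm⟩

/-- the kernel of `pair · X` on `span (t', x)`. -/
theorem bh_mem_span_of_pair_eq_zero {r : ℕ} {t' : Fin r → ι → K} {x X : ι → K}
    (ht : ∀ i, pair (t' i) X = 0) (hx : pair x X = 1) {w : ι → K}
    (hw : w ∈ Submodule.span K (Set.range (Fin.snoc t' x : Fin (r + 1) → ι → K)))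
    (hwX : pair w X = 0) : w ∈ Submodule.span K (Set.range t') := by
  obtain ⟨g, rfl⟩ := (Submodule.mem_span_range_iff_exists_fun K).1 hw
  rw [Fin.sum_univ_castSucc] at hwX ⊢
  simp only [Fin.snoc_castSucc, Fin.snoc_last] at hwX ⊢
  rw [bh_pair_add, bh_pair_sum, bh_pair_smul, hx, mul_one] at hwX
  simp only [bh_pair_smul, ht, mul_zero, Finset.sum_const_zero, zero_add] at hwX
  rw [hwX, zero_smul, add_zero]
  exact Submodule.sum_mem _ fun j _ => Submodule.smul_mem _ _ (Submodule.subset_span ⟨j, rfl⟩)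

theorem bh_kap_one (a : AbsoluteValue K ℝ) : kap a 1 = 1 := by
  unfold kap
  split_ifs <;> simp

theorem bh_kap_pow (a : AbsoluteValue K ℝ) (n r : ℕ) : kap a n ^ r = kap a (n ^ r) := by
  induction r with
  | zero => simp [bh_kap_one]
  | succ r ih => rw [pow_succ, pow_succ, ih, kap_mul]

theorem bh_upper (a : AbsoluteValue K ℝ) {r : ℕ} (t' : Fin r → ι → K) (x X : ι → K)
    (ht : ∀ i, pair (t' i) X = 0) (hx : pair x X = 1)
    (hli : LinearIndependent K (Fin.snoc t' x : Fin (r + 1) → ι → K)) :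
    vol a (Fin.snoc t' x : Fin (r + 1) → ι → K) *
        opn a (Submodule.span K (Set.range (Fin.snoc t' x : Fin (r + 1) → ι → K))) X
      ≤ kap a (r + 1).factorial * vol a t' := by
  set T : Fin (r + 1) → ι → K := Fin.snoc t' x with hT
  set W := Submodule.span K (Set.range T) with hW
  have hli' : LinearIndependent K t' := by
    have := hli.comp Fin.castSucc (Fin.castSucc_injective r)
    have e : T ∘ Fin.castSucc = t' := by
      funext i
      simp [hT]
    rwa [e] at this
  obtain ⟨I, y', hech, hspan⟩ := exists_echelon a hli'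
  obtain ⟨P, hP⟩ := bh_exists_matrix (t := t') (y := y')
    (fun i => hspan ▸ Submodule.subset_span ⟨i, rfl⟩)
  have hvolt : vol a t' = a P.det * vol a y' := by
    conv_lhs => rw [funext hP]
    exact vol_mulVec a P y'
  have hdetle : a P.det ≤ vol a t' := by
    rw [hvolt]
    exact le_mul_of_one_le_right (a.nonneg _) hech.one_le_vol
  have hTpos : 0 < vol a T := vol_pos a hli
  have hκ : 0 ≤ kap a (r + 1).factorial :=
    le_trans zero_le_one (one_le_kap a (Nat.factorial_pos _))
  have hxW : x ∈ W := Submodule.subset_span ⟨Fin.last r, by simp [hT]⟩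
  have key : ∀ s ∈ W, a (pair s X)
      ≤ (kap a (r + 1).factorial * vol a t' / vol a T) * nrm a s := by
    intro s hs
    by_cases hsX : pair s X = 0
    · rw [hsX, map_zero]
      exact mul_nonneg (div_nonneg (mul_nonneg hκ (vol_nonneg a _)) hTpos.le) (nrm_nonneg a s)
    · set x₁ : ι → K := (pair s X)⁻¹ • s with hx₁
      have hx₁W : x₁ ∈ W := W.smul_mem _ hs
      have h1 : x - x₁ ∈ Submodule.span K (Set.range t') :=
        bh_mem_span_of_pair_eq_zero ht hx (W.sub_mem hxW hx₁W)
          (by rw [bh_pair_sub, hx, hx₁, bh_pair_smul, inv_mul_cancel₀ hsX, sub_self])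
      rw [← hspan] at h1
      obtain ⟨c, hc⟩ := (Submodule.mem_span_range_iff_exists_fun K).1 h1
      have hT' : T = (Fin.snoc (fun i => ∑ j, P i j • y' j) (∑ j, c j • y' j + (1 : K) • x₁) :
          Fin (r + 1) → ι → K) := by
        rw [hc, one_smul, sub_add_cancel, ← funext hP]
      have h2 : vol a T = a P.det * vol a (Fin.snoc y' x₁ : Fin (r + 1) → ι → K) := by
        rw [hT', bh_vol_snoc, map_one, mul_one]
      have h3 : vol a (Fin.snoc y' x₁ : Fin (r + 1) → ι → K)
          ≤ kap a (r + 1).factorial * nrm a x₁ := by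
        refine le_trans (vol_le_prod a _) (le_of_eq ?_)
        rw [Fin.prod_univ_castSucc]
        simp only [Fin.snoc_castSucc, Fin.snoc_last, hech.nrm_eq_one, Finset.prod_const_one,
          one_mul]
      have h4 : nrm a x₁ = (a (pair s X))⁻¹ * nrm a s := by rw [hx₁, nrm_smul, map_inv₀]
      have hpos : 0 < a (pair s X) := a.pos hsX
      rw [div_mul_eq_mul_div, le_div_iff₀ hTpos]
      calc a (pair s X) * vol a T
          = a (pair s X) * (a P.det * vol a (Fin.snoc y' x₁ : Fin (r + 1) → ι → K)) := by rw [h2]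
        _ ≤ a (pair s X) * (vol a t' * (kap a (r + 1).factorial *
              ((a (pair s X))⁻¹ * nrm a s))) := by
            rw [← h4]
            exact mul_le_mul_of_nonneg_left
              (mul_le_mul hdetle h3 (vol_nonneg a _) (vol_nonneg a _)) hpos.le
        _ = kap a (r + 1).factorial * vol a t' * nrm a s := by
            field_simp
  have h5 := opn_le a W X (div_nonneg (mul_nonneg hκ (vol_nonneg a _)) hTpos.le) key
  calc vol a T * opn a W X ≤ vol a T * (kap a (r + 1).factorial * vol a t' / vol a T) :=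
        mul_le_mul_of_nonneg_left h5 hTpos.le
    _ = kap a (r + 1).factorial * vol a t' := by
        field_simp

theorem bh_lower (a : AbsoluteValue K ℝ) {r : ℕ} (t' : Fin r → ι → K) (x X : ι → K)
    (ht : ∀ i, pair (t' i) X = 0) (hx : pair x X = 1)
    (hli : LinearIndependent K (Fin.snoc t' x : Fin (r + 1) → ι → K)) :
    vol a t' ≤ kap a (r.factorial * 2 ^ r) * (vol a (Fin.snoc t' x : Fin (r + 1) → ι → K) *
        opn a (Submodule.span K (Set.range (Fin.snoc t' x : Fin (r + 1) → ι → K))) X) := by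
  set T : Fin (r + 1) → ι → K := Fin.snoc t' x with hT
  set W := Submodule.span K (Set.range T) with hW
  obtain ⟨I, y, hech, hspan⟩ := exists_echelon a hli
  obtain ⟨i₀, hi₀⟩ := Finite.exists_max (fun i => a (pair (y i) X))
  have hxW : x ∈ W := Submodule.subset_span ⟨Fin.last r, by simp [hT]⟩
  have hp0 : pair (y i₀) X ≠ 0 := by
    intro h0
    have hall : ∀ i, pair (y i) X = 0 := fun i => by
      have := hi₀ i
      rw [h0, map_zero] at this
      exact (map_eq_zero a).1 (le_antisymm this (a.nonneg _))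
    have hxW' : x ∈ Submodule.span K (Set.range y) := hspan ▸ hxW
    obtain ⟨g, hg⟩ := (Submodule.mem_span_range_iff_exists_fun K).1 hxW'
    have h1 : pair x X = 0 := by
      rw [← hg, bh_pair_sum]
      simp [bh_pair_smul, hall]
    rw [hx] at h1
    exact one_ne_zero h1
  let q : Fin r → K := fun j => pair (y (i₀.succAbove j)) X / pair (y i₀) X
  let z : Fin r → ι → K := fun j => y (i₀.succAbove j) - q j • y i₀
  have hyW : ∀ i, y i ∈ W := fun i => by
    rw [hW, ← hspan]
    exact Submodule.subset_span ⟨i, rfl⟩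
  have hz : ∀ j, z j ∈ Submodule.span K (Set.range t') := fun j =>
    bh_mem_span_of_pair_eq_zero ht hx (W.sub_mem (hyW _) (W.smul_mem _ (hyW _)))
      (by rw [bh_pair_sub, bh_pair_smul, div_mul_cancel₀ _ hp0, sub_self])
  obtain ⟨Q, hQ⟩ := bh_exists_matrix hz
  have hy0 : y i₀ - pair (y i₀) X • x ∈ Submodule.span K (Set.range t') :=
    bh_mem_span_of_pair_eq_zero ht hx (W.sub_mem (hyW _) (W.smul_mem _ hxW))
      (by rw [bh_pair_sub, bh_pair_smul, hx, mul_one, sub_self])
  obtain ⟨c, hc⟩ := (Submodule.mem_span_range_iff_exists_fun K).1 hy0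
  have hfam : (Fin.snoc z (y i₀) : Fin (r + 1) → ι → K)
      = Fin.snoc (fun i => ∑ j, Q i j • t' j) (∑ j, c j • t' j + pair (y i₀) X • x) := by
    rw [hc, sub_add_cancel, ← funext hQ]
  have h1 : vol a (Fin.snoc z (y i₀) : Fin (r + 1) → ι → K)
      = a Q.det * a (pair (y i₀) X) * vol a T := by
    rw [hfam, bh_vol_snoc]
  have h2 : 1 ≤ vol a (Fin.snoc z (y i₀) : Fin (r + 1) → ι → K) := by
    let J : Fin (r + 1) → ι := Fin.snoc (fun j => I (i₀.succAbove j)) (I i₀)
    have h3 := le_vol a (Fin.snoc z (y i₀) : Fin (r + 1) → ι → K) J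
    have hdet : Matrix.det (Matrix.of fun i j =>
        (Fin.snoc z (y i₀) : Fin (r + 1) → ι → K) i (J j)) = 1 := by
      have h4 : (Matrix.of fun i j => (Fin.snoc z (y i₀) : Fin (r + 1) → ι → K) i (J j))
          = Matrix.transpose (bhMat 1 (fun j => -q j) 1) := by
        ext i j
        refine Fin.lastCases ?_ (fun i' => ?_) i <;> refine Fin.lastCases ?_ (fun j' => ?_) j
        · simp [bhMat, J, hech.1]
        · simp [bhMat, J, hech.1, (Fin.succAbove_ne i₀ j').symm]
        · simp [bhMat, J, z, hech.1, Fin.succAbove_ne i₀ i']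
        · simp [bhMat, J, z, hech.1, (Fin.succAbove_ne i₀ j').symm, Matrix.one_apply,
            (Fin.succAbove_right_injective (p := i₀)).eq_iff, eq_comm]
      rw [h4, Matrix.det_transpose, bhMat_det, Matrix.det_one, one_mul]
    rw [hdet, map_one] at h3
    exact h3
  have h3 : vol a z = a Q.det * vol a t' := by
    conv_lhs => rw [funext hQ]
    exact vol_mulVec a Q t'
  have hκ2 : 0 ≤ kap a 2 := le_trans zero_le_one (one_le_kap a (by norm_num))
  have h4 : ∀ j, nrm a (z j) ≤ kap a 2 := by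
    intro j
    have e : z j = y (i₀.succAbove j) + (-(q j)) • y i₀ := by
      simp only [z, neg_smul, sub_eq_add_neg]
    rw [e]
    refine le_trans (nrm_add_le a _ _) ?_
    rw [nrm_smul, hech.nrm_eq_one, hech.nrm_eq_one, mul_one, map_neg_eq_map]
    have h5 : a (q j) ≤ 1 := by
      simp only [q]
      rw [map_div₀]
      exact div_le_one_of_le₀ (hi₀ _) (a.nonneg _)
    rw [max_eq_left h5, mul_one]
  have hκr : 0 ≤ kap a r.factorial := le_trans zero_le_one (one_le_kap a (Nat.factorial_pos _))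
  have h5 : vol a z ≤ kap a (r.factorial * 2 ^ r) := by
    rw [← kap_mul, ← bh_kap_pow]
    refine le_trans (vol_le_prod a z) (mul_le_mul_of_nonneg_left ?_ hκr)
    calc ∏ i, nrm a (z i) ≤ ∏ _i : Fin r, kap a 2 :=
          Finset.prod_le_prod (fun _ _ => nrm_nonneg a _) (fun j _ => h4 j)
      _ = kap a 2 ^ r := by simp
  have h6 : a (pair (y i₀) X) ≤ opn a W X := by
    rw [hW, ← hspan]
    exact abv_pair_echelon_le_opn a hech X i₀
  have hT0 : 0 ≤ vol a T := vol_nonneg a T
  calc vol a t' = vol a t' * 1 := (mul_one _).symm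
    _ ≤ vol a t' * (a Q.det * a (pair (y i₀) X) * vol a T) :=
        mul_le_mul_of_nonneg_left (h1 ▸ h2) (vol_nonneg a _)
    _ = vol a z * (vol a T * a (pair (y i₀) X)) := by rw [h3]; ring
    _ ≤ kap a (r.factorial * 2 ^ r) * (vol a T * opn a W X) :=
        mul_le_mul h5 (mul_le_mul_of_nonneg_left h6 hT0)
          (mul_nonneg hT0 (a.nonneg _)) (le_trans (vol_nonneg a z) h5)

theorem exists_baseHeight (r : ℕ) : ∃ C : ℕ, 1 ≤ C ∧ ∀ (a : AbsoluteValue K ℝ) (t' : Fin r → ι → K)
    (x X : ι → K), (∀ i, pair (t' i) X = 0) → pair x X = 1 →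
    LinearIndependent K (Fin.snoc t' x : Fin (r + 1) → ι → K) →
    vol a t' ≤ kap a C * (vol a (Fin.snoc t' x : Fin (r + 1) → ι → K) *
        opn a (Submodule.span K (Set.range (Fin.snoc t' x : Fin (r + 1) → ι → K))) X) ∧
    vol a (Fin.snoc t' x : Fin (r + 1) → ι → K) *
        opn a (Submodule.span K (Set.range (Fin.snoc t' x : Fin (r + 1) → ι → K))) X
      ≤ kap a C * vol a t' := by
  have hpos : 1 ≤ (r + 1).factorial * 2 ^ r :=
    Nat.one_le_iff_ne_zero.2 (Nat.mul_ne_zero (Nat.factorial_ne_zero _) (by positivity))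
  refine ⟨(r + 1).factorial * 2 ^ r, hpos, fun a t' x X ht hx hli => ⟨?_, ?_⟩⟩
  · refine le_trans (bh_lower a t' x X ht hx hli) (mul_le_mul_of_nonneg_right ?_
      (mul_nonneg (vol_nonneg a _) (opn_nonneg a _ _)))
    exact kap_mono a (Nat.mul_le_mul_right _ (Nat.factorial_le (Nat.le_succ r)))
      (Nat.one_le_iff_ne_zero.2 (Nat.mul_ne_zero (Nat.factorial_ne_zero _) (by positivity)))
  · refine le_trans (bh_upper a t' x X ht hx hli) (mul_le_mul_of_nonneg_right ?_ (vol_nonneg a _))
    exact kap_mono a (Nat.le_mul_of_pos_right _ (by positivity)) (Nat.factorial_pos _)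

end Fermat.Agent.MW
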