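import Fermat.Agent.MW.Loc.BaseHeight

/-!
# MW / LOC leaf 6: chains (iterated base times height).

`t : Fin r → ι → K`, `x : Fin e → ι → K`, functionals `X : Fin e → ι → K` with
`X k (t i) = 0`, `X k (x j) = 0` for `j < k`, `X k (x k) = 1`.   `W k = span (t, x 0, …, x k)`.  Then
`vol t ≍ vol (t, x 0, …, x (e-1)) * ∏ k, opn (W k) (X k)`.

Proof: induction on `e` (peel off the LAST vector `x (e-1)`: `Fin.snoc`, `Fin.prod_univ_castSucc`,
`Fin.append t (Fin.snoc x' y) = Fin.snoc (Fin.append t x') y`), each step is `exists_baseHeight (r + e)`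
applied to `t' = Fin.append t x'`, `x = y`, `X = X (last)`.
-/

set_option autoImplicit false

namespace Fermat.Agent.MW

variable {K : Type*} [Field K] {ι : Type*} [Fintype ι]

/-- `span (t, x 0, …, x k)`. -/
noncomputable def chainSpan {r e : ℕ} (t : Fin r → ι → K) (x : Fin e → ι → K) (k : Fin e) :
    Submodule K (ι → K) :=
  Submodule.span K (Set.range t ∪ x '' {j | j ≤ k})

theorem Chain_range_append {r e : ℕ} (t : Fin r → ι → K) (x : Fin e → ι → K) :
    Set.range (Fin.append t x) = Set.range t ∪ Set.range x := by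
  ext z
  constructor
  · rintro ⟨i, rfl⟩
    refine Fin.addCases (fun i => ?_) (fun j => ?_) i
    · rw [Fin.append_left]
      exact Or.inl ⟨i, rfl⟩
    · rw [Fin.append_right]
      exact Or.inr ⟨j, rfl⟩
  · rintro (⟨i, rfl⟩ | ⟨j, rfl⟩)
    · exact ⟨Fin.castAdd e i, Fin.append_left t x i⟩
    · exact ⟨Fin.natAdd r j, Fin.append_right t x j⟩

theorem Chain_chainSpan_last {r e : ℕ} (t : Fin r → ι → K) (x : Fin (e + 1) → ι → K) :
    chainSpan t x (Fin.last e) = Submodule.span K (Set.range (Fin.append t x)) := by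
  unfold chainSpan
  rw [Chain_range_append]
  congr 2
  ext z
  constructor
  · rintro ⟨j, -, rfl⟩
    exact ⟨j, rfl⟩
  · rintro ⟨j, rfl⟩
    exact ⟨j, Fin.le_last j, rfl⟩

theorem Chain_chainSpan_castSucc {r e : ℕ} (t : Fin r → ι → K) (x : Fin (e + 1) → ι → K)
    (k : Fin e) : chainSpan t x k.castSucc = chainSpan t (Fin.init x) k := by
  unfold chainSpan
  congr 2
  ext z
  constructor
  · rintro ⟨j, hj, rfl⟩
    have hj' : j ≤ k.castSucc := hj
    have hlt : (j : ℕ) < e := lt_of_le_of_lt (Fin.le_def.mp hj') k.2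
    refine ⟨⟨j, hlt⟩, ?_, ?_⟩
    · show (⟨j, hlt⟩ : Fin e) ≤ k
      exact Fin.le_def.mpr (Fin.le_def.mp hj')
    · rfl
  · rintro ⟨j, hj, rfl⟩
    have hj' : j ≤ k := hj
    exact ⟨j.castSucc, Fin.castSucc_le_castSucc_iff.mpr hj', rfl⟩

theorem exists_chain_vol (r e : ℕ) : ∃ C : ℕ, 1 ≤ C ∧ ∀ (a : AbsoluteValue K ℝ) (t : Fin r → ι → K)
    (x X : Fin e → ι → K), (∀ i k, pair (t i) (X k) = 0) → (∀ j k, j < k → pair (x j) (X k) = 0) →
    (∀ k, pair (x k) (X k) = 1) → LinearIndependent K (Fin.append t x) →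
    vol a t ≤ kap a C * (vol a (Fin.append t x) * ∏ k, opn a (chainSpan t x k) (X k)) ∧
    vol a (Fin.append t x) * ∏ k, opn a (chainSpan t x k) (X k) ≤ kap a C * vol a t := by
  induction e with
  | zero =>
    refine ⟨1, le_rfl, fun a t x X _ _ _ _ => ?_⟩
    have h1 : Fin.append t x = t := by
      funext i
      exact Fin.append_left t x i
    rw [h1, bh_kap_one, Finset.univ_eq_empty, Finset.prod_empty, mul_one, one_mul]
    exact ⟨le_rfl, le_rfl⟩
  | succ e ih =>
    obtain ⟨C₀, hC₀, H₀⟩ := ih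
    obtain ⟨C₁, hC₁, H₁⟩ := exists_baseHeight (K := K) (ι := ι) (r + e)
    refine ⟨C₀ * C₁, Nat.one_le_iff_ne_zero.2 (Nat.mul_ne_zero (by omega) (by omega)),
      fun a t x X h1 h2 h3 hli => ?_⟩
    have hE : Fin.append t x =
        (Fin.snoc (Fin.append t (Fin.init x)) (x (Fin.last e)) : Fin (r + e + 1) → ι → K) := by
      rw [← Fin.append_snoc, Fin.snoc_init_self]
    have hli' : LinearIndependent K
        (Fin.snoc (Fin.append t (Fin.init x)) (x (Fin.last e)) : Fin (r + e + 1) → ι → K) := by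
      rw [← hE]
      exact hli
    have hliT : LinearIndependent K (Fin.append t (Fin.init x)) := by
      have h4 := hli'.comp Fin.castSucc (Fin.castSucc_injective _)
      have h5 : (Fin.snoc (Fin.append t (Fin.init x)) (x (Fin.last e)) :
          Fin (r + e + 1) → ι → K) ∘ Fin.castSucc = Fin.append t (Fin.init x) := by
        funext i
        exact Fin.snoc_castSucc (α := fun _ => ι → K) _ _ i
      rwa [h5] at h4
    have hT0 : ∀ i, pair (Fin.append t (Fin.init x) i) (X (Fin.last e)) = 0 := by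
      intro i
      refine Fin.addCases (fun i => ?_) (fun j => ?_) i
      · rw [Fin.append_left]
        exact h1 i _
      · rw [Fin.append_right]
        exact h2 j.castSucc (Fin.last e) (Fin.castSucc_lt_last j)
    obtain ⟨A₁, B₁⟩ := H₁ a (Fin.append t (Fin.init x)) (x (Fin.last e)) (X (Fin.last e)) hT0
      (h3 _) hli'
    obtain ⟨A₀, B₀⟩ := H₀ a t (Fin.init x) (Fin.init X) (fun i k => h1 i k.castSucc)
      (fun j k hjk => h2 j.castSucc k.castSucc (Fin.castSucc_lt_castSucc_iff.mpr hjk))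
      (fun k => h3 k.castSucc) hliT
    rw [← hE] at A₁ B₁
    rw [Fin.prod_univ_castSucc, Chain_chainSpan_last]
    have hP : ∏ k : Fin e, opn a (chainSpan t x k.castSucc) (X k.castSucc) =
        ∏ k : Fin e, opn a (chainSpan t (Fin.init x) k) (Fin.init X k) :=
      Finset.prod_congr rfl fun k _ => by
        rw [Chain_chainSpan_castSucc]
        rfl
    rw [hP]
    set P' := ∏ k : Fin e, opn a (chainSpan t (Fin.init x) k) (Fin.init X k) with hP'
    set o := opn a (Submodule.span K (Set.range (Fin.append t x))) (X (Fin.last e)) with ho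
    have hP0 : 0 ≤ P' := Finset.prod_nonneg fun k _ => opn_nonneg a _ _
    have hκ0 : 0 ≤ kap a C₀ := Opn_kap_nonneg a C₀
    have hκ1 : 0 ≤ kap a C₁ := Opn_kap_nonneg a C₁
    rw [← kap_mul]
    constructor
    · calc vol a t ≤ kap a C₀ * (vol a (Fin.append t (Fin.init x)) * P') := A₀
        _ ≤ kap a C₀ * ((kap a C₁ * (vol a (Fin.append t x) * o)) * P') :=
            mul_le_mul_of_nonneg_left (mul_le_mul_of_nonneg_right A₁ hP0) hκ0
        _ = kap a C₀ * kap a C₁ * (vol a (Fin.append t x) * (P' * o)) := by ring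
    · calc vol a (Fin.append t x) * (P' * o) = (vol a (Fin.append t x) * o) * P' := by ring
        _ ≤ (kap a C₁ * vol a (Fin.append t (Fin.init x))) * P' :=
            mul_le_mul_of_nonneg_right B₁ hP0
        _ = kap a C₁ * (vol a (Fin.append t (Fin.init x)) * P') := by ring
        _ ≤ kap a C₁ * (kap a C₀ * vol a t) := mul_le_mul_of_nonneg_left B₀ hκ1
        _ = kap a C₀ * kap a C₁ * vol a t := by ring

end Fermat.Agent.MW
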