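import Fermat.Agent.MW.Abs

/-!
# MW / LOC : local linear algebra over a field with an absolute value. Definitions.

`K` a field, `a : AbsoluteValue K ℝ` arbitrary (archimedean or not), `ι` a finite index type.
* `nrm a x = max_i a (x i)` : the sup norm on `ι → K`;
* `pair x X = ∑ i, x i * X i`;
* `vol a t = max_I a (det (t i (I j)))` : the volume of a family `t : Fin r → ι → K` (the sup norm of the
  vector of the `r × r` minors);
* `opn a W X = sup_{s ∈ W} a (pair s X) / nrm a s` : the norm of the functional `pair · X` on `W`.
All estimates are up to `kap a C` (`= 1` for nonarchimedean `a`), `C` depending only on the dimensions.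
-/

set_option autoImplicit false

noncomputable section

namespace Fermat.Agent.MW

variable {K : Type*} [Field K] (a : AbsoluteValue K ℝ) {ι : Type*} [Fintype ι]

/-- The sup norm. -/
def nrm (x : ι → K) : ℝ := ⨆ i, a (x i)

/-- The standard pairing. -/
def pair (x X : ι → K) : K := ∑ i, x i * X i

/-- The volume of a family of vectors: the sup norm of its vector of maximal minors. -/
def vol {r : ℕ} (t : Fin r → ι → K) : ℝ :=
  ⨆ I : Fin r → ι, a (Matrix.det (Matrix.of fun i j => t i (I j)))

/-- The norm of the functional `pair · X` restricted to `W`. -/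
def opn (W : Submodule K (ι → K)) (X : ι → K) : ℝ :=
  ⨆ s : W, a (pair (s : ι → K) X) / nrm a (s : ι → K)

/-- `y` is an echelon family with respect to the columns `I`, with all entries of absolute value `≤ 1`. -/
def IsEchelon {r : ℕ} (y : Fin r → ι → K) (I : Fin r → ι) : Prop :=
  (∀ i j, y i (I j) = if i = j then 1 else 0) ∧ ∀ i k, a (y i k) ≤ 1

end Fermat.Agent.MW
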