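import Fermat.Agent.MW.Loc.Chain

/-!
# MW / LOC leaf 7: the volume of the common kernel of independent functionals (abstract form of (STAR)).

`ι` has `r + e` elements, `X : Fin e → ι → K` linearly independent functionals, `t` a basis of their common
kernel, `cpl : Fin e → ι → K` a complement (`D = det (t ; cpl) ≠ 0`), `Δ = det (X j (cpl k))`.  Then `Δ ≠ 0` and
`vol t * |Δ| ≍ |D| * ∏ k, opn (kerAbove X k) (X k)`, `kerAbove X k = {s | X j s = 0 for all j > k}`.

Proof.  `G = (pair (cpl k) (X j))` is invertible: if `λ G = 0` then `∑ λ k • cpl k` is killed by all `X j`, so lies in the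
common kernel, which has dimension `r` (independence of `X`) and contains the independent family `t`, so equals `span t`;
as `(t ; cpl)` is independent, `λ = 0`.   Put `x = G⁻¹ cpl`: `pair (x k) (X j) = δ_kj`,
`Fin.append t x = (block diag (1, G⁻¹)) (Fin.append t cpl)`, so `vol (Fin.append t x) = |D| / |Δ|` (`vol_mulVec`, `vol_eq_det`,
`Matrix.det_fromBlocks_zero₂₁`-type lemma).  `chainSpan t x k = kerAbove X k` (write `s` in the basis `(t ; x)`:
the coefficient of `x j` is `pair s (X j)`).  Conclude by `exists_chain_vol`.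
-/

set_option autoImplicit false

namespace Fermat.Agent.MW

variable {K : Type*} [Field K] {ι : Type*} [Fintype ι]

/-- The vectors killed by all the functionals `X j`, `j > k`. -/
def kerAbove {e : ℕ} (X : Fin e → ι → K) (k : Fin e) : Submodule K (ι → K) where
  carrier := {s | ∀ j, k < j → pair s (X j) = 0}
  add_mem' := by
    intro s s' hs hs' j hj
    have h1 := hs j hj
    have h2 := hs' j hj
    simp only [pair, Pi.add_apply, add_mul, Finset.sum_add_distrib] at h1 h2 ⊢
    rw [h1, h2, add_zero]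
  zero_mem' := by
    intro j _
    simp [pair]
  smul_mem' := by
    intro c s hs j hj
    have h1 := hs j hj
    simp only [pair, Pi.smul_apply, smul_eq_mul, mul_assoc] at h1 ⊢
    rw [← Finset.mul_sum, h1, mul_zero]

theorem mem_kerAbove {e : ℕ} (X : Fin e → ι → K) (k : Fin e) (s : ι → K) :
    s ∈ kerAbove X k ↔ ∀ j, k < j → pair s (X j) = 0 := Iff.rfl

theorem Star.pair_comm (x X : ι → K) : pair x X = pair X x := by
  simp [pair, mul_comm]

theorem Star.pair_sum_smul_right {κ : Type*} (t : Finset κ) (c : κ → K) (y : κ → ι → K)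
    (x : ι → K) : pair x (∑ i ∈ t, c i • y i) = ∑ i ∈ t, c i * pair x (y i) := by
  rw [Star.pair_comm, Opn_pair_sum_smul]
  exact Finset.sum_congr rfl fun i _ => by rw [Star.pair_comm]

/-- the Gram matrix of the complement against the functionals is invertible. -/
theorem Star.det_ne_zero {r e : ℕ} (eqv : Fin (r + e) ≃ ι) (t : Fin r → ι → K)
    (cpl X : Fin e → ι → K) (hX : LinearIndependent K X) (ht : ∀ i k, pair (t i) (X k) = 0)
    (hD : Matrix.det (Matrix.of fun i j => Fin.append t cpl i (eqv j)) ≠ 0) :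
    Matrix.det (Matrix.of fun k j => pair (cpl k) (X j)) ≠ 0 := by
  intro h0
  obtain ⟨μ, hμ, hGμ⟩ := Matrix.exists_mulVec_eq_zero_iff.2 h0
  set Y : ι → K := ∑ j, μ j • X j with hY
  have hcpl : ∀ k, pair (cpl k) Y = 0 := by
    intro k
    have h1 := congrFun hGμ k
    simp only [Matrix.mulVec, dotProduct, Matrix.of_apply, Pi.zero_apply] at h1
    rw [hY, Star.pair_sum_smul_right, ← h1]
    exact Finset.sum_congr rfl fun j _ => mul_comm _ _
  have htY : ∀ i, pair (t i) Y = 0 := by
    intro i
    rw [hY, Star.pair_sum_smul_right]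
    simp [ht]
  have hB : (Matrix.of fun i j => Fin.append t cpl i (eqv j)).mulVec (Y ∘ eqv) = 0 := by
    funext i
    have h1 : ((Matrix.of fun i j => Fin.append t cpl i (eqv j)).mulVec (Y ∘ eqv)) i =
        pair (Fin.append t cpl i) Y := by
      simp only [Matrix.mulVec, dotProduct, Matrix.of_apply, Function.comp]
      exact Equiv.sum_comp eqv (fun c => Fin.append t cpl i c * Y c)
    rw [h1]
    refine Fin.addCases (fun i => ?_) (fun i => ?_) i
    · rw [Fin.append_left]
      exact htY i
    · rw [Fin.append_right]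
      exact hcpl i
  have hY0 : Y ∘ eqv = 0 := by
    by_contra hne
    exact hD (Matrix.exists_mulVec_eq_zero_iff.1 ⟨_, hne, hB⟩)
  have hY' : Y = 0 := by
    funext c
    have := congrFun hY0 (eqv.symm c)
    simpa using this
  exact hμ (funext (Fintype.linearIndependent_iff.1 hX μ hY'))

omit [Fintype ι] in
/-- block diagonal change of basis. -/
theorem Star.append_mulVec {r e : ℕ} (Q : Matrix (Fin e) (Fin e) K) (t : Fin r → ι → K)
    (c : Fin e → ι → K) :
    ∃ P : Matrix (Fin (r + e)) (Fin (r + e)) K, P.det = Q.det ∧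
      ∀ i, Fin.append t (fun k => ∑ l, Q k l • c l) i = ∑ l, P i l • Fin.append t c l := by
  classical
  refine ⟨(Matrix.fromBlocks 1 0 0 Q).submatrix finSumFinEquiv.symm finSumFinEquiv.symm, ?_, ?_⟩
  · rw [Matrix.det_submatrix_equiv_self, Matrix.det_fromBlocks_zero₂₁, Matrix.det_one, one_mul]
  · intro i
    rw [Fin.sum_univ_add]
    refine Fin.addCases (fun i => ?_) (fun i => ?_) i
    · simp [Matrix.one_apply]
    · simp

omit [Fintype ι] in
theorem Star.linearIndependent_of_det {n : ℕ} (eqv : Fin n ≃ ι) (u : Fin n → ι → K)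
    (h : Matrix.det (Matrix.of fun i j => u i (eqv j)) ≠ 0) : LinearIndependent K u := by
  rw [Fintype.linearIndependent_iff]
  intro c hc
  by_contra hcon
  have hc0 : c ≠ 0 := fun h0 => hcon fun i => congrFun h0 i
  refine h (Matrix.exists_vecMul_eq_zero_iff.1 ⟨c, hc0, ?_⟩)
  funext j
  have h1 := congrFun hc (eqv j)
  simpa [Matrix.vecMul, dotProduct] using h1

theorem Star.chainSpan_eq {r e : ℕ} (eqv : Fin (r + e) ≃ ι) (t : Fin r → ι → K)
    (x X : Fin e → ι → K) (ht : ∀ i k, pair (t i) (X k) = 0)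
    (hx : ∀ k j, pair (x k) (X j) = if k = j then 1 else 0)
    (hli : LinearIndependent K (Fin.append t x)) (k : Fin e) :
    chainSpan t x k = kerAbove X k := by
  apply le_antisymm
  · rw [chainSpan, Submodule.span_le]
    rintro _ (⟨i, rfl⟩ | ⟨l, hl, rfl⟩) j hj
    · exact ht i j
    · rw [hx, if_neg]
      rintro rfl
      exact absurd hj (not_lt.2 hl)
  · intro s hs
    have htop : Submodule.span K (Set.range (Fin.append t x)) = ⊤ :=
      hli.span_eq_top_of_card_eq_finrank' (by
        rw [Fintype.card_fin, Module.finrank_fintype_fun_eq_card, ← Fintype.card_congr eqv,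
          Fintype.card_fin])
    obtain ⟨c, hc⟩ := (Submodule.mem_span_range_iff_exists_fun K).1
      (htop ▸ Submodule.mem_top : s ∈ Submodule.span K (Set.range (Fin.append t x)))
    rw [Fin.sum_univ_add] at hc
    simp only [Fin.append_left, Fin.append_right] at hc
    have hβ : ∀ j, pair s (X j) = c (Fin.natAdd r j) := by
      intro j
      rw [← hc, bh_pair_add, Opn_pair_sum_smul, Opn_pair_sum_smul]
      simp [ht, hx]
    rw [← hc]
    refine Submodule.add_mem _ (sum_mem fun i _ => Submodule.smul_mem _ _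
      (Submodule.subset_span (Or.inl ⟨i, rfl⟩))) (sum_mem fun l _ => ?_)
    by_cases hl : l ≤ k
    · exact Submodule.smul_mem _ _ (Submodule.subset_span (Or.inr ⟨l, hl, rfl⟩))
    · rw [← hβ, hs l (not_le.1 hl), zero_smul]
      exact Submodule.zero_mem _

theorem exists_star (r e : ℕ) : ∃ C : ℕ, 1 ≤ C ∧ ∀ (a : AbsoluteValue K ℝ) (eqv : Fin (r + e) ≃ ι)
    (t : Fin r → ι → K) (cpl X : Fin e → ι → K), LinearIndependent K X →
    (∀ i k, pair (t i) (X k) = 0) →
    Matrix.det (Matrix.of fun i j => Fin.append t cpl i (eqv j)) ≠ 0 →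
    Matrix.det (Matrix.of fun k j => pair (cpl k) (X j)) ≠ 0 ∧
    vol a t * a (Matrix.det (Matrix.of fun k j => pair (cpl k) (X j))) ≤
      kap a C * (a (Matrix.det (Matrix.of fun i j => Fin.append t cpl i (eqv j))) *
        ∏ k, opn a (kerAbove X k) (X k)) ∧
    a (Matrix.det (Matrix.of fun i j => Fin.append t cpl i (eqv j))) *
        ∏ k, opn a (kerAbove X k) (X k) ≤
      kap a C * (vol a t * a (Matrix.det (Matrix.of fun k j => pair (cpl k) (X j)))) := by
  obtain ⟨C, hC1, hC⟩ := exists_chain_vol (K := K) (ι := ι) r e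
  refine ⟨C, hC1, fun a eqv t cpl X hX ht hD => ?_⟩
  have hΔ := Star.det_ne_zero eqv t cpl X hX ht hD
  refine ⟨hΔ, ?_⟩
  set G : Matrix (Fin e) (Fin e) K := Matrix.of fun k j => pair (cpl k) (X j) with hG
  set D : K := Matrix.det (Matrix.of fun i j => Fin.append t cpl i (eqv j)) with hDdef
  set x : Fin e → ι → K := fun k => ∑ l, G⁻¹ k l • cpl l with hxdef
  have hx : ∀ k j, pair (x k) (X j) = if k = j then 1 else 0 := by
    intro k j
    rw [hxdef]
    simp only
    rw [Opn_pair_sum_smul]
    have h1 : ∑ l, G⁻¹ k l * pair (cpl l) (X j) = (G⁻¹ * G) k j := by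
      rw [Matrix.mul_apply]
      rfl
    rw [h1, Matrix.nonsing_inv_mul _ (isUnit_iff_ne_zero.2 hΔ), Matrix.one_apply]
  obtain ⟨P, hPdet, hP⟩ := Star.append_mulVec G⁻¹ t cpl
  have hdet : Matrix.det (Matrix.of fun i j => Fin.append t x i (eqv j)) = G.det⁻¹ * D := by
    have h1 : (Matrix.of fun i j => Fin.append t x i (eqv j)) =
        Matrix.of fun i j => (∑ l, P i l • Fin.append t cpl l) (eqv j) := by
      ext i j
      simp only [Matrix.of_apply]
      rw [← hP i]
    rw [h1, Vol.minor_mulVec, hPdet, Matrix.det_nonsing_inv, Ring.inverse_eq_inv']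
  have hdet0 : Matrix.det (Matrix.of fun i j => Fin.append t x i (eqv j)) ≠ 0 := by
    rw [hdet]
    exact mul_ne_zero (inv_ne_zero hΔ) hD
  have hli := Star.linearIndependent_of_det eqv _ hdet0
  obtain ⟨hA, hB⟩ := hC a t x X ht (fun j k hjk => by rw [hx, if_neg hjk.ne])
    (fun k => by rw [hx, if_pos rfl]) hli
  have hspan : ∀ k, chainSpan t x k = kerAbove X k := Star.chainSpan_eq eqv t x X ht hx hli
  simp only [hspan] at hA hB
  rw [vol_eq_det a eqv, hdet, map_mul, map_inv₀] at hA hB
  have haΔ : 0 < a G.det := a.pos hΔ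
  constructor
  · calc vol a t * a G.det
        ≤ kap a C * ((a G.det)⁻¹ * a D * ∏ k, opn a (kerAbove X k) (X k)) * a G.det :=
          mul_le_mul_of_nonneg_right hA haΔ.le
      _ = kap a C * (a D * ∏ k, opn a (kerAbove X k) (X k)) := by
          field_simp
  · calc a D * ∏ k, opn a (kerAbove X k) (X k)
        = ((a G.det)⁻¹ * a D * ∏ k, opn a (kerAbove X k) (X k)) * a G.det := by
          field_simp
      _ ≤ kap a C * vol a t * a G.det := mul_le_mul_of_nonneg_right hB haΔ.le
      _ = kap a C * (vol a t * a G.det) := mul_assoc _ _ _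

end Fermat.Agent.MW
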